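import Mathlib.NumberTheory.ModularForms.Derivative
import Mathlib.Analysis.Complex.Liouville
import Fermat.Agent.S22_helper15.Bol

set_option autoImplicit false

namespace Fermat.Agent.S22_helper20

open UpperHalfPlane hiding I
open Complex Derivative Filter
open scoped MatrixGroups ModularForm Manifold Topology

/-- If `G` is holomorphic on the upper half plane and tends to `0` at `i∞`, so does `D G`
(Cauchy estimate on circles of radius one). -/
theorem isZeroAtImInfty_D {G : ℍ → ℂ} (hG : MDiff G) (h0 : IsZeroAtImInfty G) :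
    IsZeroAtImInfty (D G) := by
  rw [isZeroAtImInfty_iff] at h0 ⊢
  intro ε hε
  obtain ⟨A, hA⟩ := h0 ε hε
  refine ⟨max A 1 + 1, fun τ hτ => ?_⟩
  have hdiff : DifferentiableOn ℂ (G ∘ ofComplex) {z : ℂ | 0 < z.im} :=
    UpperHalfPlane.mdifferentiable_iff.mp hG
  have him : ∀ w ∈ Metric.closedBall (τ : ℂ) 1, max A 1 ≤ w.im := by
    intro w hw
    have h1 : |(w - τ).im| ≤ 1 :=
      (Complex.abs_im_le_norm _).trans (by simpa [dist_eq_norm] using hw)
    have h2 : (w - (τ : ℂ)).im = w.im - τ.im := by simp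
    rw [h2] at h1
    have := (abs_le.mp h1).1
    linarith
  have hsub : Metric.closedBall (τ : ℂ) 1 ⊆ {z : ℂ | 0 < z.im} := by
    intro w hw
    have := him w hw
    have h1 : (1 : ℝ) ≤ max A 1 := le_max_right _ _
    show 0 < w.im
    linarith
  have hbound : ∀ w ∈ Metric.sphere (τ : ℂ) 1, ‖(G ∘ ofComplex) w‖ ≤ ε := by
    intro w hw
    have hwc : w ∈ Metric.closedBall (τ : ℂ) 1 := Metric.sphere_subset_closedBall hw
    have hwpos : 0 < w.im := hsub hwc
    rw [Function.comp_apply, ofComplex_apply_of_im_pos hwpos]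
    refine hA _ ?_
    have := him w hwc
    exact (le_max_left A 1).trans this
  have hcauchy := Complex.norm_deriv_le_of_forall_mem_sphere_norm_le (c := (τ : ℂ))
    (f := G ∘ ofComplex) one_pos (hdiff.diffContOnCl_ball hsub) hbound
  rw [div_one] at hcauchy
  have hnorm : ‖(2 * (Real.pi : ℂ) * I)⁻¹‖ ≤ 1 := by
    rw [norm_inv, norm_mul, norm_mul, Complex.norm_I, mul_one, Complex.norm_real,
      Complex.norm_ofNat, Real.norm_of_nonneg Real.pi_pos.le]
    have : (1 : ℝ) ≤ 2 * Real.pi := by linarith [Real.two_le_pi]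
    exact inv_le_one_of_one_le₀ this
  calc ‖D G τ‖ = ‖(2 * (Real.pi : ℂ) * I)⁻¹‖ * ‖deriv (G ∘ ofComplex) τ‖ := by
        rw [normalizedDerivOfComplex, norm_mul]
    _ ≤ 1 * ε := by
        gcongr
    _ = ε := one_mul ε

theorem isZeroAtImInfty_iterate_D (m : ℕ) {G : ℍ → ℂ} (hG : MDiff G) (h0 : IsZeroAtImInfty G) :
    IsZeroAtImInfty (D^[m] G) := by
  induction m with
  | zero => simpa using h0
  | succ n ih =>
    rw [Function.iterate_succ_apply']
    exact isZeroAtImInfty_D (Fermat.Agent.S22_helper15.iterate_D_mdiff n hG) ih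

/-- A constant function which tends to zero at `i∞` vanishes. -/
theorem eq_zero_of_const_isZeroAtImInfty {c : ℂ} (h : IsZeroAtImInfty (fun _ : ℍ => c)) :
    c = 0 := by
  rw [isZeroAtImInfty_iff] at h
  by_contra hc
  have hpos : 0 < ‖c‖ / 2 := by positivity
  obtain ⟨A, hA⟩ := h (‖c‖ / 2) hpos
  have him : ((max A 1 : ℝ) * I : ℂ).im = max A 1 := by
    simp
  have hz : 0 < ((max A 1 : ℝ) * I : ℂ).im := by
    rw [him]
    exact lt_of_lt_of_le one_pos (le_max_right _ _)
  have := hA ⟨(max A 1 : ℝ) * I, hz⟩ (by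
    show A ≤ ((max A 1 : ℝ) * I : ℂ).im
    rw [him]
    exact le_max_left _ _)
  have hc' : 0 < ‖c‖ := norm_pos_iff.mpr hc
  linarith

/-- A holomorphic function on the upper half plane with `D G = 0` is constant. -/
theorem exists_const_of_D_eq_zero {G : ℍ → ℂ} (hG : MDiff G) (h : D G = 0) :
    ∃ c : ℂ, G = fun _ => c := by
  have hdiff : DifferentiableOn ℂ (G ∘ ofComplex) {z : ℂ | 0 < z.im} :=
    UpperHalfPlane.mdifferentiable_iff.mp hG
  have hderiv : Set.EqOn (deriv (G ∘ ofComplex)) 0 {z : ℂ | 0 < z.im} := by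
    intro z hz
    have h2 : D G ⟨z, hz⟩ = 0 := congrFun h ⟨z, hz⟩
    have hne : (2 * (Real.pi : ℂ) * I)⁻¹ ≠ 0 := by
      simp [Real.pi_ne_zero]
    rw [normalizedDerivOfComplex] at h2
    rcases mul_eq_zero.mp h2 with h1 | h1
    · exact absurd h1 hne
    · simpa using h1
  have hconn : IsPreconnected {z : ℂ | 0 < z.im} :=
    (Complex.isConnected_of_upperHalfPlane (r := 0) (le_refl _)
      (fun z (hz : 0 < z.im) => (le_of_lt hz : 0 ≤ z.im))).isPreconnected
  have hopen : IsOpen {z : ℂ | 0 < z.im} := isOpen_upperHalfPlaneSet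
  refine ⟨G UpperHalfPlane.I, funext fun τ => ?_⟩
  have := hopen.is_const_of_deriv_eq_zero hconn hdiff hderiv (x := (τ : ℂ))
    (y := ((UpperHalfPlane.I : ℍ) : ℂ)) τ.im_pos (UpperHalfPlane.I : ℍ).im_pos
  rw [Function.comp_apply, Function.comp_apply, ofComplex_apply, ofComplex_apply] at this
  exact this

/-- Uniqueness of iterated antiderivatives vanishing at `i∞`. -/
theorem eq_zero_of_iterate_D_eq_zero (m : ℕ) {G : ℍ → ℂ} (hG : MDiff G)
    (h0 : IsZeroAtImInfty G) (h : D^[m] G = 0) : G = 0 := by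
  induction m generalizing G with
  | zero => simpa using h
  | succ n ih =>
    rw [Function.iterate_succ_apply] at h
    have hDG : D G = 0 :=
      ih (normalizedDerivOfComplex_mdifferentiable hG) (isZeroAtImInfty_D hG h0) h
    obtain ⟨c, hc⟩ := exists_const_of_D_eq_zero hG hDG
    have : c = 0 := eq_zero_of_const_isZeroAtImInfty (hc ▸ h0)
    rw [hc, this]
    rfl

theorem eq_of_iterate_D_eq (m : ℕ) {G H : ℍ → ℂ} (hG : MDiff G) (hH : MDiff H)
    (hG0 : IsZeroAtImInfty G) (hH0 : IsZeroAtImInfty H) (h : D^[m] G = D^[m] H) : G = H := by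
  have hsub : IsZeroAtImInfty (G - H) := by
    have h1 : IsZeroAtImInfty (G + -H) := hG0.add hH0.neg
    rwa [← sub_eq_add_neg] at h1
  have := eq_zero_of_iterate_D_eq_zero m (hG.sub hH) hsub
    (by rw [Fermat.Agent.S22_helper15.iterate_D_sub m hG hH, h, sub_self])
  exact sub_eq_zero.mp this

end Fermat.Agent.S22_helper20
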