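import Fermat.Agent.S22_helper20.PolySlash
import Fermat.Agent.S22_helper20.Unique
import Fermat.Prelude.Def_ModularForm_HeckeOperator
import Fermat.Prelude.Thm_ModularForm_mdifferentiable_heckeT
import Fermat.Prelude.Thm_ModularForm_mdifferentiable_heckeU
import Fermat.Prelude.Sol.S_ModularForm_heckeT_slash_eq_self_of_mem_Gamma0

set_option autoImplicit false

namespace Fermat.Agent.S22_helper20

open UpperHalfPlane hiding I
open Complex Derivative Filter Polynomial ModularForm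
open Fermat.Agent.S22_helper15
open P2MW.S_ModularForm_heckeT_slash_eq_self_of_mem_Gamma0.ModularForm.HeckeSlashInvariance
open scoped MatrixGroups ModularForm Manifold Topology

/-- `E` is an `m`-fold `D`-antiderivative of `f`, holomorphic and vanishing at `i∞`. -/
structure IsEichler (m : ℕ) (f E : ℍ → ℂ) : Prop where
  mdiff : MDiff E
  zero : IsZeroAtImInfty E
  deriv : D^[m] E = f

theorem IsEichler.unique {m : ℕ} {f E E' : ℍ → ℂ} (h : IsEichler m f E) (h' : IsEichler m f E') :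
    E = E' :=
  eq_of_iterate_D_eq m h.mdiff h'.mdiff h.zero h'.zero (h.deriv.trans h'.deriv.symm)

theorem IsEichler.add {m : ℕ} {f g E F : ℍ → ℂ} (h : IsEichler m f E) (h' : IsEichler m g F) :
    IsEichler m (f + g) (E + F) where
  mdiff := h.mdiff.add h'.mdiff
  zero := h.zero.add h'.zero
  deriv := by rw [iterate_D_add m h.mdiff h'.mdiff, h.deriv, h'.deriv]

theorem IsEichler.smul {m : ℕ} {f E : ℍ → ℂ} (c : ℂ) (h : IsEichler m f E) :
    IsEichler m (c • f) (c • E) where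
  mdiff := h.mdiff.const_smul c
  zero := h.zero.smul c
  deriv := by rw [iterate_D_smul m c h.mdiff, h.deriv]

theorem isEichler_zero (m : ℕ) : IsEichler m 0 0 where
  mdiff := (mdifferentiable_const : MDiff (fun _ : ℍ => (0 : ℂ)))
  zero := zero_zeroAtFilter atImInfty
  deriv := iterate_D_zero m

section Matrices

theorem heckeMatrix_apply_one_zero (p j : ℕ) :
    ((heckeMatrix p j : GL (Fin 2) ℝ) : Matrix (Fin 2) (Fin 2) ℝ) 1 0 = 0 := by
  rcases eq_or_ne p 0 with rfl | hp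
  · simp
  · rw [val_heckeMatrix hp]; rfl

theorem heckeDiagMatrix_apply_one_zero (p : ℕ) :
    ((heckeDiagMatrix p : GL (Fin 2) ℝ) : Matrix (Fin 2) (Fin 2) ℝ) 1 0 = 0 := by
  rcases eq_or_ne p 0 with rfl | hp
  · simp
  · rw [val_heckeDiagMatrix hp]; rfl

theorem val_det_heckeMatrix {p : ℕ} (hp : p ≠ 0) (j : ℕ) :
    ((heckeMatrix p j).val.det : ℝ) = p := by
  rw [val_heckeMatrix hp, Matrix.det_fin_two_of]; ring

theorem val_det_heckeDiagMatrix {p : ℕ} (hp : p ≠ 0) :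
    ((heckeDiagMatrix p).val.det : ℝ) = p := by
  rw [val_heckeDiagMatrix hp, Matrix.det_fin_two_of]; ring

end Matrices

theorem isZeroAtImInfty_heckeU' {E : ℍ → ℂ} (hE : IsZeroAtImInfty E) (k : ℤ) (p : ℕ) :
    IsZeroAtImInfty (heckeU k p E) :=
  Finset.sum_induction _ (fun g : ℍ → ℂ => IsZeroAtImInfty g)
    (fun _ _ ha hb => ha.add hb) (zero_zeroAtFilter atImInfty)
    (fun j _ => hE.slash k (heckeMatrix_apply_one_zero p j))

theorem isZeroAtImInfty_heckeT' {E : ℍ → ℂ} (hE : IsZeroAtImInfty E) (k : ℤ) (p : ℕ) :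
    IsZeroAtImInfty (heckeT k p E) :=
  (isZeroAtImInfty_heckeU' hE k p).add (hE.slash k (heckeDiagMatrix_apply_one_zero p))

theorem iterate_D_slash_heckeMatrix {m : ℕ} {E : ℍ → ℂ} (hE : MDiff E) {p : ℕ} (hp : p ≠ 0)
    (j : ℕ) :
    D^[m] (E ∣[(1 : ℤ) - m] heckeMatrix p j)
      = ((p : ℂ)⁻¹) ^ m • ((D^[m] E) ∣[(1 : ℤ) + m] heckeMatrix p j) := by
  have hdet := val_det_heckeMatrix hp j
  have := bol m hE (g := heckeMatrix p j) (by rw [hdet]; exact_mod_cast Nat.pos_of_ne_zero hp)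
  rw [hdet] at this
  simpa using this

theorem iterate_D_slash_heckeDiagMatrix {m : ℕ} {E : ℍ → ℂ} (hE : MDiff E) {p : ℕ} (hp : p ≠ 0) :
    D^[m] (E ∣[(1 : ℤ) - m] heckeDiagMatrix p)
      = ((p : ℂ)⁻¹) ^ m • ((D^[m] E) ∣[(1 : ℤ) + m] heckeDiagMatrix p) := by
  have hdet := val_det_heckeDiagMatrix hp
  have := bol m hE (g := heckeDiagMatrix p) (by rw [hdet]; exact_mod_cast Nat.pos_of_ne_zero hp)
  rw [hdet] at this
  simpa using this

theorem iterate_D_heckeU {m : ℕ} {E : ℍ → ℂ} (hE : MDiff E) {p : ℕ} (hp : p ≠ 0) :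
    D^[m] (heckeU ((1 : ℤ) - m) p E) = ((p : ℂ)⁻¹) ^ m • heckeU ((1 : ℤ) + m) p (D^[m] E) := by
  rw [heckeU_def, heckeU_def, iterate_D_finset_sum m _ (fun j _ => hE.slash _ _), Finset.smul_sum]
  exact Finset.sum_congr rfl fun j _ => iterate_D_slash_heckeMatrix hE hp j

theorem iterate_D_heckeT {m : ℕ} {E : ℍ → ℂ} (hE : MDiff E) {p : ℕ} (hp : p ≠ 0) :
    D^[m] (heckeT ((1 : ℤ) - m) p E) = ((p : ℂ)⁻¹) ^ m • heckeT ((1 : ℤ) + m) p (D^[m] E) := by
  rw [heckeT_eq_heckeU_add, heckeT_eq_heckeU_add,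
    iterate_D_add m (mdifferentiable_heckeU hE _ _) (hE.slash _ _), iterate_D_heckeU hE hp,
    iterate_D_slash_heckeDiagMatrix hE hp, smul_add]

/-- The Eichler integral of `T_p f` is `p^m • T_p (E f)` (weights `1+m` resp. `1-m`). -/
theorem IsEichler.heckeT {m : ℕ} {f E : ℍ → ℂ} (h : IsEichler m f E) {p : ℕ} (hp : p ≠ 0) :
    IsEichler m (heckeT ((1 : ℤ) + m) p f) ((p : ℂ) ^ m • heckeT ((1 : ℤ) - m) p E) where
  mdiff := (mdifferentiable_heckeT h.mdiff _ _).const_smul _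
  zero := (isZeroAtImInfty_heckeT' h.zero _ _).smul _
  deriv := by
    have hp' : (p : ℂ) ≠ 0 := by exact_mod_cast hp
    rw [iterate_D_smul m _ (mdifferentiable_heckeT h.mdiff _ _), iterate_D_heckeT h.mdiff hp,
      h.deriv, smul_smul, ← mul_pow, mul_inv_cancel₀ hp', one_pow, one_smul]

/-- The Eichler integral of `U_p f` is `p^m • U_p (E f)` (weights `1+m` resp. `1-m`). -/
theorem IsEichler.heckeU {m : ℕ} {f E : ℍ → ℂ} (h : IsEichler m f E) {p : ℕ} (hp : p ≠ 0) :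
    IsEichler m (heckeU ((1 : ℤ) + m) p f) ((p : ℂ) ^ m • heckeU ((1 : ℤ) - m) p E) where
  mdiff := (mdifferentiable_heckeU h.mdiff _ _).const_smul _
  zero := (isZeroAtImInfty_heckeU' h.zero _ _).smul _
  deriv := by
    have hp' : (p : ℂ) ≠ 0 := by exact_mod_cast hp
    rw [iterate_D_smul m _ (mdifferentiable_heckeU h.mdiff _ _), iterate_D_heckeU h.mdiff hp,
      h.deriv, smul_smul, ← mul_pow, mul_inv_cancel₀ hp', one_pow, one_smul]

end Fermat.Agent.S22_helper20
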