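import Fermat.Agent.S22_helper20.Hecke

set_option autoImplicit false

namespace Fermat.Agent.S22_helper20

open UpperHalfPlane hiding I
open Complex Derivative Filter Polynomial ModularForm Matrix.SpecialLinearGroup
open Fermat.Agent.S22_helper15
open P2MW.S_ModularForm_heckeT_slash_eq_self_of_mem_Gamma0.ModularForm.HeckeSlashInvariance
open scoped MatrixGroups ModularForm Manifold Topology OnePoint

/-- The integer matrix underlying `heckeRep p x`. -/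
def repIntMat (p : ℕ) (x : OnePoint (ZMod p)) : Matrix (Fin 2) (Fin 2) ℤ :=
  x.elim (heckeDiagIntMat p) (fun j => heckeIntMat p j.val)

@[simp] theorem repIntMat_infty (p : ℕ) : repIntMat p ∞ = heckeDiagIntMat p := rfl

@[simp] theorem repIntMat_coe (p : ℕ) (j : ZMod p) :
    repIntMat p (j : OnePoint (ZMod p)) = heckeIntMat p j.val := rfl

theorem slash_polyFun_heckeRep {m : ℕ} (hm : 0 < m) {P : ℂ[X]} (hP : P.degree < m)
    {p : ℕ} (hp : p ≠ 0) (x : OnePoint (ZMod p)) :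
    polyFun P ∣[(1 : ℤ) - m] heckeRep p x
      = ((p : ℂ)⁻¹) ^ m • polyFun (polySlash m (repIntMat p x) P) := by
  induction x using OnePoint.rec with
  | infty => exact slash_polyFun_heckeDiagMatrix hm hP hp
  | coe j => exact slash_polyFun_heckeMatrix hm hP hp j.val

theorem σ_mapGL (γ : SL(2, ℤ)) : UpperHalfPlane.σ (mapGL ℝ γ) = .refl ℝ ℂ := by
  rw [UpperHalfPlane.σ, if_pos]
  simp

/-- Key computation: the period polynomial of `p^m • T_p E` in terms of those of `E`. -/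
theorem slash_smul_heckeT_eq {N m p : ℕ} (hm : 0 < m) [Fact p.Prime]
    {E : ℍ → ℂ} {P : SL(2, ℤ) → ℂ[X]}
    (hP : ∀ δ ∈ CongruenceSubgroup.Gamma0 N,
      (P δ).degree < m ∧ E ∣[(1 : ℤ) - m] (mapGL ℝ δ) = E + polyFun (P δ))
    (γ : SL(2, ℤ)) (γ' : OnePoint (ZMod p) → SL(2, ℤ))
    (hγ' : ∀ x, γ' x ∈ CongruenceSubgroup.Gamma0 N ∧
      heckeRep p x * mapGL ℝ γ = mapGL ℝ (γ' x) * heckeRep p (redMatrix p γ • x)) :
    ((p : ℂ) ^ m • heckeT ((1 : ℤ) - m) p E) ∣[(1 : ℤ) - m] (mapGL ℝ γ)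
      = (p : ℂ) ^ m • heckeT ((1 : ℤ) - m) p E
        + polyFun (∑ x : OnePoint (ZMod p),
            polySlash m (repIntMat p (redMatrix p γ • x)) (P (γ' x))) := by
  have hp : p ≠ 0 := (Fact.out : p.Prime).ne_zero
  have hp' : (p : ℂ) ≠ 0 := by exact_mod_cast hp
  have hterm : ∀ x : OnePoint (ZMod p),
      (E ∣[(1 : ℤ) - m] heckeRep p x) ∣[(1 : ℤ) - m] (mapGL ℝ γ)
        = E ∣[(1 : ℤ) - m] heckeRep p (redMatrix p γ • x)
          + ((p : ℂ)⁻¹) ^ m • polyFun (polySlash m (repIntMat p (redMatrix p γ • x)) (P (γ' x))) := by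
    intro x
    obtain ⟨hmem, hmul⟩ := hγ' x
    obtain ⟨hdeg, hper⟩ := hP _ hmem
    rw [← SlashAction.slash_mul, hmul, SlashAction.slash_mul, hper, SlashAction.add_slash,
      slash_polyFun_heckeRep hm hdeg hp]
  have hperm : ∑ x : OnePoint (ZMod p), E ∣[(1 : ℤ) - m] heckeRep p (redMatrix p γ • x)
      = ∑ x : OnePoint (ZMod p), E ∣[(1 : ℤ) - m] heckeRep p x :=
    Equiv.sum_comp (MulAction.toPerm (redMatrix p γ)) (fun x => E ∣[(1 : ℤ) - m] heckeRep p x)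
  rw [ModularForm.smul_slash, σ_mapGL, ContinuousAlgEquiv.refl_apply,
    heckeT_eq_sum_onePoint, SlashAction.sum_slash, Finset.sum_congr rfl (fun x _ => hterm x),
    Finset.sum_add_distrib, hperm, smul_add, ← Finset.smul_sum, smul_smul,
    ← mul_pow, mul_inv_cancel₀ hp', one_pow, one_smul]
  congr 1
  funext τ
  simp [polyFun, eval_finsetSum]

/-- Existence of the coset data `γ'` for `T_p`, `p ∤ N`. -/
theorem exists_heckeRep_mul {N p : ℕ} [Fact p.Prime] (hpN : ¬ p ∣ N) (γ : SL(2, ℤ))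
    (hγ : γ ∈ CongruenceSubgroup.Gamma0 N) :
    ∃ γ' : OnePoint (ZMod p) → SL(2, ℤ), ∀ x, γ' x ∈ CongruenceSubgroup.Gamma0 N ∧
      heckeRep p x * mapGL ℝ γ = mapGL ℝ (γ' x) * heckeRep p (redMatrix p γ • x) := by
  have hcN : (N : ℤ) ∣ γ 1 0 :=
    (ZMod.intCast_zmod_eq_zero_iff_dvd _ _).mp (CongruenceSubgroup.Gamma0_mem.mp hγ)
  choose γ' h1 h2 using fun x => heckeRep_mul hpN γ hcN x
  exact ⟨γ', fun x => ⟨CongruenceSubgroup.Gamma0_mem.mpr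
    ((ZMod.intCast_zmod_eq_zero_iff_dvd _ _).mpr (h1 x)), h2 x⟩⟩

/-- Key computation for `U_p`, `p ∣ N`. -/
theorem slash_smul_heckeU_eq {N m p : ℕ} (hm : 0 < m) [NeZero p]
    {E : ℍ → ℂ} {P : SL(2, ℤ) → ℂ[X]}
    (hP : ∀ δ ∈ CongruenceSubgroup.Gamma0 N,
      (P δ).degree < m ∧ E ∣[(1 : ℤ) - m] (mapGL ℝ δ) = E + polyFun (P δ))
    (γ : SL(2, ℤ)) (σ : Equiv.Perm (ZMod p)) (γ' : ZMod p → SL(2, ℤ))
    (hγ' : ∀ x, γ' x ∈ CongruenceSubgroup.Gamma0 N ∧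
      heckeMatrix p x.val * mapGL ℝ γ = mapGL ℝ (γ' x) * heckeMatrix p (σ x).val) :
    ((p : ℂ) ^ m • heckeU ((1 : ℤ) - m) p E) ∣[(1 : ℤ) - m] (mapGL ℝ γ)
      = (p : ℂ) ^ m • heckeU ((1 : ℤ) - m) p E
        + polyFun (∑ x : ZMod p, polySlash m (heckeIntMat p (σ x).val) (P (γ' x))) := by
  have hp : p ≠ 0 := NeZero.ne p
  have hp' : (p : ℂ) ≠ 0 := by exact_mod_cast hp
  have hterm : ∀ x : ZMod p,
      (E ∣[(1 : ℤ) - m] heckeMatrix p x.val) ∣[(1 : ℤ) - m] (mapGL ℝ γ)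
        = E ∣[(1 : ℤ) - m] heckeMatrix p (σ x).val
          + ((p : ℂ)⁻¹) ^ m • polyFun (polySlash m (heckeIntMat p (σ x).val) (P (γ' x))) := by
    intro x
    obtain ⟨hmem, hmul⟩ := hγ' x
    obtain ⟨hdeg, hper⟩ := hP _ hmem
    rw [← SlashAction.slash_mul, hmul, SlashAction.slash_mul, hper, SlashAction.add_slash,
      slash_polyFun_heckeMatrix hm hdeg hp]
  have hperm : ∑ x : ZMod p, E ∣[(1 : ℤ) - m] heckeMatrix p (σ x).val
      = ∑ x : ZMod p, E ∣[(1 : ℤ) - m] heckeMatrix p x.val :=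
    Equiv.sum_comp σ (fun x => E ∣[(1 : ℤ) - m] heckeMatrix p x.val)
  rw [ModularForm.smul_slash, σ_mapGL, ContinuousAlgEquiv.refl_apply,
    heckeU_eq_sum_zmod, SlashAction.sum_slash, Finset.sum_congr rfl (fun x _ => hterm x),
    Finset.sum_add_distrib, hperm, smul_add,
    ← Finset.smul_sum, smul_smul, ← mul_pow, mul_inv_cancel₀ hp', one_pow, one_smul]
  congr 1
  funext τ
  simp [polyFun, eval_finsetSum]

/-- Existence of the coset data for `U_p`, `p ∣ N`. -/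
theorem exists_heckeMatrix_mul {N p : ℕ} [NeZero p] (hpN : p ∣ N) (γ : SL(2, ℤ))
    (hγ : γ ∈ CongruenceSubgroup.Gamma0 N) :
    ∃ (σ : Equiv.Perm (ZMod p)) (γ' : ZMod p → SL(2, ℤ)),
      ∀ x, γ' x ∈ CongruenceSubgroup.Gamma0 N ∧
        heckeMatrix p x.val * mapGL ℝ γ = mapGL ℝ (γ' x) * heckeMatrix p (σ x).val := by
  have hcN : (N : ℤ) ∣ γ 1 0 :=
    (ZMod.intCast_zmod_eq_zero_iff_dvd _ _).mp (CongruenceSubgroup.Gamma0_mem.mp hγ)
  have hc : (p : ℤ) ∣ γ 1 0 := (Int.natCast_dvd_natCast.mpr hpN).trans hcN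
  choose γ' h1 h2 using fun x => heckeMatrix_mul_of_dvd γ hc x
  refine ⟨affinePerm γ ((ZMod.intCast_zmod_eq_zero_iff_dvd _ _).mpr hc), γ', fun x => ⟨?_, h2 x⟩⟩
  rw [CongruenceSubgroup.Gamma0_mem, h1 x]
  push_cast
  rw [CongruenceSubgroup.Gamma0_mem.mp hγ, mul_zero]


theorem coeff_sum_polySlash {ι : Type*} [Fintype ι] (m : ℕ) (A : ι → Matrix (Fin 2) (Fin 2) ℤ)
    (Q : ι → ℂ[X]) (j : ℕ) :
    (∑ x, polySlash m (A x) (Q x)).coeff j
      = ∑ x, ∑ i ∈ Finset.range m, (((slashBasis m (A x) i).coeff j : ℤ) : ℂ) * (Q x).coeff i := by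
  rw [finsetSum_coeff]
  exact Finset.sum_congr rfl fun x _ => coeff_polySlash m (A x) (Q x) j

/-- Period polynomials of `T_p f` (`p ∤ N` prime) as integral combinations of those of `f`.
The coset data `γ'`, `A` depend only on `γ`. -/
theorem periodPoly_heckeT {N m p : ℕ} (hm : 0 < m) [hp : Fact p.Prime] (hpN : ¬ p ∣ N)
    (γ : SL(2, ℤ)) (hγ : γ ∈ CongruenceSubgroup.Gamma0 N) :
    ∃ (γ' : OnePoint (ZMod p) → SL(2, ℤ)) (A : OnePoint (ZMod p) → Matrix (Fin 2) (Fin 2) ℤ),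
      (∀ x, γ' x ∈ CongruenceSubgroup.Gamma0 N) ∧
      ∀ (f E E' : ℍ → ℂ) (P : SL(2, ℤ) → ℂ[X]) (Q : ℂ[X]),
        IsEichler m f E → IsEichler m (heckeT ((1 : ℤ) + m) p f) E' →
        (∀ δ ∈ CongruenceSubgroup.Gamma0 N,
          (P δ).degree < m ∧ E ∣[(1 : ℤ) - m] (mapGL ℝ δ) = E + polyFun (P δ)) →
        E' ∣[(1 : ℤ) - m] (mapGL ℝ γ) = E' + polyFun Q →
        Q = ∑ x, polySlash m (A x) (P (γ' x)) := by
  obtain ⟨γ', hγ'⟩ := exists_heckeRep_mul hpN γ hγ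
  refine ⟨γ', fun x => repIntMat p (redMatrix p γ • x), fun x => (hγ' x).1, ?_⟩
  intro f E E' P Q hE hE' hP hQ
  have hEE' : E' = (p : ℂ) ^ m • heckeT ((1 : ℤ) - m) p E :=
    hE'.unique (hE.heckeT hp.out.ne_zero)
  have := slash_smul_heckeT_eq hm hP γ γ' hγ'
  rw [← hEE', hQ] at this
  exact polyFun_injective (add_left_cancel this)

/-- Period polynomials of `U_p f` (`p ∣ N`) as integral combinations of those of `f`. -/
theorem periodPoly_heckeU {N m p : ℕ} (hm : 0 < m) [hp : NeZero p] (hpN : p ∣ N)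
    (γ : SL(2, ℤ)) (hγ : γ ∈ CongruenceSubgroup.Gamma0 N) :
    ∃ (γ' : ZMod p → SL(2, ℤ)) (A : ZMod p → Matrix (Fin 2) (Fin 2) ℤ),
      (∀ x, γ' x ∈ CongruenceSubgroup.Gamma0 N) ∧
      ∀ (f E E' : ℍ → ℂ) (P : SL(2, ℤ) → ℂ[X]) (Q : ℂ[X]),
        IsEichler m f E → IsEichler m (heckeU ((1 : ℤ) + m) p f) E' →
        (∀ δ ∈ CongruenceSubgroup.Gamma0 N,
          (P δ).degree < m ∧ E ∣[(1 : ℤ) - m] (mapGL ℝ δ) = E + polyFun (P δ)) →
        E' ∣[(1 : ℤ) - m] (mapGL ℝ γ) = E' + polyFun Q →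
        Q = ∑ x, polySlash m (A x) (P (γ' x)) := by
  obtain ⟨σ, γ', hγ'⟩ := exists_heckeMatrix_mul hpN γ hγ
  refine ⟨γ', fun x => heckeIntMat p (σ x).val, fun x => (hγ' x).1, ?_⟩
  intro f E E' P Q hE hE' hP hQ
  have hEE' : E' = (p : ℂ) ^ m • heckeU ((1 : ℤ) - m) p E :=
    hE'.unique (hE.heckeU hp.out)
  have := slash_smul_heckeU_eq hm hP γ σ γ' hγ'
  rw [← hEE', hQ] at this
  exact polyFun_injective (add_left_cancel this)

end Fermat.Agent.S22_helper20
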