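import Mathlib.NumberTheory.ModularForms.SlashActions
import Mathlib.Algebra.Polynomial.AlgebraMap
import Mathlib.Algebra.Polynomial.Degree.Lemmas
import Mathlib.Algebra.Polynomial.Roots
import Fermat.Prelude.Def_ModularForm_HeckeOperator

set_option autoImplicit false

namespace Fermat.Agent.S22_helper20

open Polynomial UpperHalfPlane
open scoped MatrixGroups ModularForm

/-- A polynomial viewed as a function on the upper half plane. -/
noncomputable def polyFun (P : ℂ[X]) : ℍ → ℂ := fun z => P.eval (z : ℂ)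

@[simp] theorem polyFun_apply (P : ℂ[X]) (z : ℍ) : polyFun P z = P.eval (z : ℂ) := rfl

theorem polyFun_add (P Q : ℂ[X]) : polyFun (P + Q) = polyFun P + polyFun Q := by
  funext z; simp [polyFun]

theorem polyFun_sub (P Q : ℂ[X]) : polyFun (P - Q) = polyFun P - polyFun Q := by
  funext z; simp [polyFun]

theorem polyFun_neg (P : ℂ[X]) : polyFun (-P) = -polyFun P := by
  funext z; simp [polyFun]

theorem polyFun_smul (c : ℂ) (P : ℂ[X]) : polyFun (c • P) = c • polyFun P := by
  funext z; simp [polyFun]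

@[simp] theorem polyFun_zero : polyFun 0 = 0 := by
  funext z; simp [polyFun]

/-- The integer polynomial `(aX+b)^i (cX+d)^(m-1-i)` attached to an integer matrix. -/
noncomputable def slashBasis (m : ℕ) (A : Matrix (Fin 2) (Fin 2) ℤ) (i : ℕ) : ℤ[X] :=
  (C (A 0 0) * X + C (A 0 1)) ^ i * (C (A 1 0) * X + C (A 1 1)) ^ (m - 1 - i)

theorem natDegree_slashBasis_le (m : ℕ) (A : Matrix (Fin 2) (Fin 2) ℤ) {i : ℕ} (hi : i < m) :
    (slashBasis m A i).natDegree ≤ m - 1 := by
  unfold slashBasis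
  have h1 : ∀ a b : ℤ, (C a * X + C b : ℤ[X]).natDegree ≤ 1 := fun a b =>
    natDegree_linear_le
  calc ((C (A 0 0) * X + C (A 0 1)) ^ i * (C (A 1 0) * X + C (A 1 1)) ^ (m - 1 - i)).natDegree
      ≤ ((C (A 0 0) * X + C (A 0 1)) ^ i).natDegree
          + ((C (A 1 0) * X + C (A 1 1)) ^ (m - 1 - i)).natDegree := natDegree_mul_le
    _ ≤ i * 1 + (m - 1 - i) * 1 := by
        gcongr
        · exact natDegree_pow_le_of_le i (h1 _ _)
        · exact natDegree_pow_le_of_le (m - 1 - i) (h1 _ _)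
    _ = m - 1 := by omega

/-- The integral weight `1 - m` slash action on polynomials of degree `< m`:
`(P‖A)(X) = (cX+d)^(m-1) P((aX+b)/(cX+d))`. -/
noncomputable def polySlash (m : ℕ) (A : Matrix (Fin 2) (Fin 2) ℤ) (P : ℂ[X]) : ℂ[X] :=
  ∑ i ∈ Finset.range m, P.coeff i • (slashBasis m A i).map (Int.castRingHom ℂ)

theorem polySlash_add (m : ℕ) (A : Matrix (Fin 2) (Fin 2) ℤ) (P Q : ℂ[X]) :
    polySlash m A (P + Q) = polySlash m A P + polySlash m A Q := by
  simp only [polySlash, coeff_add, add_smul, Finset.sum_add_distrib]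

theorem polySlash_smul (m : ℕ) (A : Matrix (Fin 2) (Fin 2) ℤ) (c : ℂ) (P : ℂ[X]) :
    polySlash m A (c • P) = c • polySlash m A P := by
  simp only [polySlash, coeff_smul, smul_eq_mul, mul_smul, Finset.smul_sum]

@[simp] theorem polySlash_zero (m : ℕ) (A : Matrix (Fin 2) (Fin 2) ℤ) :
    polySlash m A 0 = 0 := by
  simp [polySlash]

theorem polySlash_neg (m : ℕ) (A : Matrix (Fin 2) (Fin 2) ℤ) (P : ℂ[X]) :
    polySlash m A (-P) = -polySlash m A P := by
  rw [← neg_one_smul ℂ P, polySlash_smul, neg_one_smul]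

theorem polySlash_sub (m : ℕ) (A : Matrix (Fin 2) (Fin 2) ℤ) (P Q : ℂ[X]) :
    polySlash m A (P - Q) = polySlash m A P - polySlash m A Q := by
  rw [sub_eq_add_neg, polySlash_add, polySlash_neg, sub_eq_add_neg]

theorem polySlash_sum {ι : Type*} (s : Finset ι) (m : ℕ) (A : Matrix (Fin 2) (Fin 2) ℤ)
    (P : ι → ℂ[X]) : polySlash m A (∑ x ∈ s, P x) = ∑ x ∈ s, polySlash m A (P x) := by
  classical
  induction s using Finset.induction_on with
  | empty => simp
  | insert a s ha ih => rw [Finset.sum_insert ha, Finset.sum_insert ha, polySlash_add, ih]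

/-- Integrality: the coefficients of `P‖A` are integer combinations of those of `P`. -/
theorem coeff_polySlash (m : ℕ) (A : Matrix (Fin 2) (Fin 2) ℤ) (P : ℂ[X]) (j : ℕ) :
    (polySlash m A P).coeff j
      = ∑ i ∈ Finset.range m, (((slashBasis m A i).coeff j : ℤ) : ℂ) * P.coeff i := by
  simp only [polySlash, finsetSum_coeff, coeff_smul, coeff_map, smul_eq_mul, eq_intCast]
  exact Finset.sum_congr rfl fun i _ => mul_comm _ _

theorem natDegree_polySlash_le (m : ℕ) (A : Matrix (Fin 2) (Fin 2) ℤ) (P : ℂ[X]) :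
    (polySlash m A P).natDegree ≤ m - 1 := by
  unfold polySlash
  refine natDegree_sum_le_of_forall_le _ _ fun i hi => ?_
  refine (natDegree_smul_le _ _).trans ((natDegree_map_le).trans ?_)
  exact natDegree_slashBasis_le m A (Finset.mem_range.mp hi)

theorem degree_polySlash_lt {m : ℕ} (hm : 0 < m) (A : Matrix (Fin 2) (Fin 2) ℤ) (P : ℂ[X]) :
    (polySlash m A P).degree < m := by
  refine lt_of_le_of_lt degree_le_natDegree ?_
  have := natDegree_polySlash_le m A P
  exact_mod_cast (by omega : (polySlash m A P).natDegree < m)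

theorem coeff_polySlash_eq_zero {m : ℕ} (hm : 0 < m) (A : Matrix (Fin 2) (Fin 2) ℤ) (P : ℂ[X])
    {j : ℕ} (hj : m ≤ j) : (polySlash m A P).coeff j = 0 :=
  coeff_eq_zero_of_degree_lt (lt_of_lt_of_le (degree_polySlash_lt hm A P) (by exact_mod_cast hj))

theorem eval_polySlash (m : ℕ) (A : Matrix (Fin 2) (Fin 2) ℤ) (P : ℂ[X]) (z : ℂ) :
    (polySlash m A P).eval z
      = ∑ i ∈ Finset.range m, P.coeff i * (((A 0 0 : ℤ) : ℂ) * z + ((A 0 1 : ℤ) : ℂ)) ^ i
          * (((A 1 0 : ℤ) : ℂ) * z + ((A 1 1 : ℤ) : ℂ)) ^ (m - 1 - i) := by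
  simp only [polySlash, eval_finsetSum, eval_smul, smul_eq_mul, slashBasis, Polynomial.map_mul,
    Polynomial.map_pow, Polynomial.map_add, map_X, eval_mul, eval_pow, eval_add,
    eval_X, eq_intCast, Polynomial.map_intCast, eval_intCast, mul_assoc]

theorem eval_eq_sum_range_of_degree_lt {m : ℕ} {P : ℂ[X]} (hP : P.degree < m) (w : ℂ) :
    P.eval w = ∑ i ∈ Finset.range m, P.coeff i * w ^ i := by
  by_cases h0 : P = 0
  · subst h0
    simp
  · exact eval_eq_sum_range' ((natDegree_lt_iff_degree_lt h0).mpr hP) w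

/-- The Mathlib weight `1 - m` slash of a polynomial function of degree `< m` by a real matrix
with integer entries and positive determinant. -/
theorem slash_polyFun {m : ℕ} (hm : 0 < m) {P : ℂ[X]} (hP : P.degree < m)
    (A : Matrix (Fin 2) (Fin 2) ℤ) {g : GL (Fin 2) ℝ} (hg : 0 < g.val.det)
    (hA : ∀ i j, g.val i j = ((A i j : ℤ) : ℝ)) :
    polyFun P ∣[(1 : ℤ) - m] g = ((g.val.det : ℂ)⁻¹) ^ m • polyFun (polySlash m A P) := by
  funext τ
  have hdet : 0 < (Matrix.GeneralLinearGroup.det g : ℝ) := by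
    simpa [Matrix.GeneralLinearGroup.val_det_apply] using hg
  have hden : denom g τ ≠ 0 := denom_ne_zero g τ
  rw [ModularForm.slash_apply, Pi.smul_apply, smul_eq_mul, polyFun_apply, polyFun_apply,
    eval_polySlash, UpperHalfPlane.σ, if_pos hdet, ContinuousAlgEquiv.refl_apply,
    coe_smul_of_det_pos hdet, eval_eq_sum_range_of_degree_lt hP]
  have hnum : num g τ = ((A 0 0 : ℤ) : ℂ) * τ + ((A 0 1 : ℤ) : ℂ) := by
    simp [num, hA]
  have hdenom : denom g τ = ((A 1 0 : ℤ) : ℂ) * τ + ((A 1 1 : ℤ) : ℂ) := by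
    simp [denom, hA]
  have habs : ((|(Matrix.GeneralLinearGroup.det g : ℝ)| : ℝ) : ℂ) = (g.val.det : ℂ) := by
    rw [abs_of_pos hdet, Matrix.GeneralLinearGroup.val_det_apply]
  have hdetne : (g.val.det : ℂ) ≠ 0 := by
    exact_mod_cast hg.ne'
  rw [habs, ← hnum, ← hdenom]
  have e1 : (1 : ℤ) - m - 1 = -(m : ℤ) := by ring
  have e2 : -((1 : ℤ) - m) = ((m - 1 : ℕ) : ℤ) := by
    rw [Nat.cast_sub hm]; push_cast; ring
  rw [e1, e2, zpow_neg, zpow_natCast, zpow_natCast, inv_pow, Finset.sum_mul, Finset.sum_mul,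
    Finset.mul_sum]
  refine Finset.sum_congr rfl fun i hi => ?_
  have hi' : i ≤ m - 1 := by have := Finset.mem_range.mp hi; omega
  have : denom g τ ^ (m - 1) = denom g τ ^ i * denom g τ ^ (m - 1 - i) := by
    rw [← pow_add]; congr 1; omega
  rw [this, div_pow]
  field_simp


/-- The integer matrix underlying an element of `SL(2, ℤ)`. -/
def intMat (γ : SL(2, ℤ)) : Matrix (Fin 2) (Fin 2) ℤ := γ.val

/-- Slash by an element of `SL(2, ℤ)` (through `mapGL ℝ`). -/
theorem slash_polyFun_mapGL {m : ℕ} (hm : 0 < m) {P : ℂ[X]} (hP : P.degree < m) (γ : SL(2, ℤ)) :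
    polyFun P ∣[(1 : ℤ) - m] (Matrix.SpecialLinearGroup.mapGL ℝ γ)
      = polyFun (polySlash m (intMat γ) P) := by
  have hdet : ((Matrix.SpecialLinearGroup.mapGL ℝ γ : GL (Fin 2) ℝ).val.det : ℝ) = 1 := by
    have := Matrix.SpecialLinearGroup.det_coe (γ.map (Int.castRingHom ℝ))
    simpa using this
  rw [slash_polyFun hm hP (intMat γ) (g := Matrix.SpecialLinearGroup.mapGL ℝ γ)
    (by rw [hdet]; exact one_pos) (by intro i j; simp [intMat]), hdet]
  simp

/-- The integer matrix `[1, j; 0, p]`. -/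
def heckeIntMat (p j : ℕ) : Matrix (Fin 2) (Fin 2) ℤ := !![1, (j : ℤ); 0, (p : ℤ)]

/-- The integer matrix `[p, 0; 0, 1]`. -/
def heckeDiagIntMat (p : ℕ) : Matrix (Fin 2) (Fin 2) ℤ := !![(p : ℤ), 0; 0, 1]

theorem slash_polyFun_heckeMatrix {m : ℕ} (hm : 0 < m) {P : ℂ[X]} (hP : P.degree < m)
    {p : ℕ} (hp : p ≠ 0) (j : ℕ) :
    polyFun P ∣[(1 : ℤ) - m] ModularForm.heckeMatrix p j
      = ((p : ℂ)⁻¹) ^ m • polyFun (polySlash m (heckeIntMat p j) P) := by
  have hdet : ((ModularForm.heckeMatrix p j).val.det : ℝ) = p := by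
    rw [ModularForm.val_heckeMatrix hp, Matrix.det_fin_two_of]; ring
  rw [slash_polyFun hm hP (heckeIntMat p j) (g := ModularForm.heckeMatrix p j)
    (by rw [hdet]; exact_mod_cast Nat.pos_of_ne_zero hp)
    (by intro a b; rw [ModularForm.val_heckeMatrix hp]; fin_cases a <;> fin_cases b <;>
      simp [heckeIntMat]), hdet]
  simp

theorem slash_polyFun_heckeDiagMatrix {m : ℕ} (hm : 0 < m) {P : ℂ[X]} (hP : P.degree < m)
    {p : ℕ} (hp : p ≠ 0) :
    polyFun P ∣[(1 : ℤ) - m] ModularForm.heckeDiagMatrix p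
      = ((p : ℂ)⁻¹) ^ m • polyFun (polySlash m (heckeDiagIntMat p) P) := by
  have hdet : ((ModularForm.heckeDiagMatrix p).val.det : ℝ) = p := by
    rw [ModularForm.val_heckeDiagMatrix hp, Matrix.det_fin_two_of]; ring
  rw [slash_polyFun hm hP (heckeDiagIntMat p) (g := ModularForm.heckeDiagMatrix p)
    (by rw [hdet]; exact_mod_cast Nat.pos_of_ne_zero hp)
    (by intro a b; rw [ModularForm.val_heckeDiagMatrix hp]; fin_cases a <;> fin_cases b <;>
      simp [heckeDiagIntMat]), hdet]
  simp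

/-- A polynomial function on the upper half plane determines the polynomial. -/
theorem polyFun_injective : Function.Injective polyFun := by
  intro P Q h
  by_contra hne
  have hsub : P - Q ≠ 0 := sub_ne_zero.mpr hne
  have hfin : ((P - Q).roots.toFinset : Set ℂ).Finite := Finset.finite_toSet _
  have hsubset : Set.range (fun n : ℕ => ((n : ℂ) + Complex.I)) ⊆ ((P - Q).roots.toFinset : Set ℂ) := by
    rintro _ ⟨n, rfl⟩
    have hz : 0 < ((n : ℂ) + Complex.I).im := by simp
    have := congrFun h ⟨(n : ℂ) + Complex.I, hz⟩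
    simp only [polyFun_apply] at this
    simp [Multiset.mem_toFinset, mem_roots hsub, IsRoot, this]
  have hinj : Function.Injective (fun n : ℕ => ((n : ℂ) + Complex.I)) := by
    intro a b hab
    have := congrArg Complex.re hab
    simpa using this
  exact (Set.infinite_range_of_injective hinj) (hfin.subset hsubset)

theorem polyFun_eq_zero_iff {P : ℂ[X]} : polyFun P = 0 ↔ P = 0 := by
  constructor
  · intro h
    exact polyFun_injective (h.trans polyFun_zero.symm)
  · rintro rfl
    exact polyFun_zero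

end Fermat.Agent.S22_helper20
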